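import Fermat.Agent.S16.H127.Bridge1
import Fermat.Agent.S16.H454.Final

/-!
# S16: `result_of_forms` in the exact shape of the skeleton (helper127)

`Skel.result_of_forms` (WP ALG, main statement of `origin/helper556:Fermat/Agent/S16/Skeleton.lean`)
obtained from helper454's landed `H454.card_quot_of_LB_UB` (lattice level) and BRIDGE-1
(`H127.ubLattice_of`, `H127.lbLattice_of`).
-/

set_option autoImplicit false

noncomputable section

namespace Fermat.Agent.S16.H127

open UpperHalfPlane ModularForm CongruenceSubgroup MatrixGroups ModularFormClass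
open Fermat.Agent.S16

theorem sigmaPrime_eq_sigmaP (p k : ℕ) : H454.sigmaPrime p k = (sigmaP p k : ℤ) := by
  unfold H454.sigmaPrime H454.divisorsPrime sigmaP
  push_cast
  rfl

/-- WP ALG (main), exact skeleton shape (the hypothesis `5 ≤ p` is not needed). -/
theorem result_of_forms' (p : ℕ) [Fact p.Prime]
    (hE : HasEis p) (hC : CuspCrit p) (hUB : UpperBound p) (hLB : LowerBound p) :
    Nat.card (↥(CuspForm.heckeLatticeAlgebra p ∅) ⧸
        Ideal.map ((CuspForm.latticeRestrictHom p ∅).toRingHom.comp (CuspForm.heckeEvalForms p 2))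
          (ModularCurve.eisensteinIdeal p)) =
      ModularCurve.eisensteinNumerator p := by
  have hub := ubLattice_of p hE hUB
  obtain ⟨h, hh, c, hc, hk⟩ := lbLattice_of p hE hC hLB
  refine H454.card_quot_of_LB_UB p ⟨h, hh, c, hc, fun k hk1 => ?_⟩ ?_
  · obtain ⟨z, hz⟩ := hk k hk1
    refine ⟨z, ?_⟩
    rw [hz, sigmaPrime_eq_sigmaP]
    push_cast
    rfl
  · rintro M hM ⟨f, hf, hcong⟩
    refine hub M hM ⟨f, hf, fun k hk1 => ?_⟩
    obtain ⟨z, hz⟩ := hcong k hk1
    refine ⟨z, ?_⟩
    rw [hz, sigmaPrime_eq_sigmaP]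
    push_cast
    rfl

/-- WP ALG (main), exact skeleton statement `Skel.result_of_forms`. -/
theorem result_of_forms (p : ℕ) [Fact p.Prime] (_hp5 : 5 ≤ p)
    (hE : HasEis p) (hC : CuspCrit p) (hUB : UpperBound p) (hLB : LowerBound p) :
    Nat.card (↥(CuspForm.heckeLatticeAlgebra p ∅) ⧸
        Ideal.map ((CuspForm.latticeRestrictHom p ∅).toRingHom.comp (CuspForm.heckeEvalForms p 2))
          (ModularCurve.eisensteinIdeal p)) =
      ModularCurve.eisensteinNumerator p :=
  result_of_forms' p hE hC hUB hLB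

end Fermat.Agent.S16.H127
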