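import Fermat.Agent.S16.Interface
import Fermat.Prelude.Def_CuspForm_IntegralStructure
import Fermat.Prelude.Def_ModularCurve_ModularUnit
import Fermat.Prelude.Thm_CongruenceSubgroup_one_mem_strictPeriods_Gamma0

/-!
# S16, work package BRIDGE-1 (section 1 of the route) — helper127

From the function-level interface predicates of `Fermat.Agent.S16.Interface`
(`HasEis`, `CuspCrit`, `UpperBound`, `LowerBound`) to the lattice-level statements consumed by
the Hecke-algebra part (WP ALG):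

* `UBLattice p` (UB'): if some `f ∈ intLattice p 2` has `a_k(f) ≡ σ'(k) mod m` for all `k ≥ 1`,
  then `m ∣ n`, `n = eisensteinNumerator p = (p - 1) / gcd (p - 1) 12`.
* `LBLattice p` (LB'): there are `h ∈ intLattice p 2` and `c` prime to `n` with
  `a_k(h) ≡ c σ'(k) mod n` for all `k ≥ 1`.

Main results: `ubLattice_of : HasEis p → UpperBound p → UBLattice p` and
`lbLattice_of : HasEis p → CuspCrit p → LowerBound p → LBLattice p`, together with
reformulations of `UBLattice`/`LBLattice` with integer coefficient sequences and divisibility.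
-/

set_option autoImplicit false

noncomputable section

namespace Fermat.Agent.S16.H127

open UpperHalfPlane ModularForm CongruenceSubgroup MatrixGroups ModularFormClass
open Fermat.Agent.S16
open Fermat.Agent.S20 (MF SF)
open scoped Manifold

/-! ## Bundling function-level forms -/

section Bundle

variable (p : ℕ) [NeZero p]

/-- A function-level modular form on `Γ₀(p)` is the coercion of a bundled one. -/
theorem exists_modularForm_of_mem_MF {k : ℤ} {f : ℍ → ℂ} (hf : f ∈ MF (Gamma0 p) k) :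
    ∃ F : ModularForm (Gamma0 p) k, ⇑F = f := by
  obtain ⟨h1, h2, h3⟩ := hf
  refine ⟨⟨⟨f, ?_⟩, h1, fun {c} hc => ?_⟩, rfl⟩
  · rintro γ ⟨γ', hγ', rfl⟩
    have := h2 γ' hγ'
    rwa [ModularForm.SL_slash] at this
  · have hc' : IsCusp c 𝒮ℒ := (Subgroup.IsArithmetic.isCusp_iff_isCusp_SL2Z _).mp hc
    exact (OnePoint.isBoundedAt_iff_forall_SL2Z hc').mpr fun γ _ => h3 γ

/-- A function-level cusp form on `Γ₀(p)` is the coercion of a bundled one. -/
theorem exists_cuspForm_of_mem_SF {k : ℤ} {f : ℍ → ℂ} (hf : f ∈ SF (Gamma0 p) k) :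
    ∃ F : CuspForm (Gamma0 p) k, ⇑F = f := by
  obtain ⟨h1, h2, h3⟩ := hf
  refine ⟨⟨⟨f, ?_⟩, h1, fun {c} hc => ?_⟩, rfl⟩
  · rintro γ ⟨γ', hγ', rfl⟩
    have := h2 γ' hγ'
    rwa [ModularForm.SL_slash] at this
  · have hc' : IsCusp c 𝒮ℒ := (Subgroup.IsArithmetic.isCusp_iff_isCusp_SL2Z _).mp hc
    exact (OnePoint.isZeroAt_iff_forall_SL2Z hc').mpr fun γ _ => h3 γ

/-- The coercion of a bundled cusp form on `Γ₀(p)` is a function-level cusp form. -/
theorem coe_cuspForm_mem_SF {k : ℤ} (F : CuspForm (Gamma0 p) k) : ⇑F ∈ SF (Gamma0 p) k := by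
  refine ⟨CuspFormClass.holo F, fun γ hγ => ?_, fun γ => CuspFormClass.zero_at_infty_slash F γ⟩
  rw [ModularForm.SL_slash]
  exact SlashInvariantFormClass.slash_action_eq F _ (Subgroup.mem_map_of_mem _ hγ)

/-- The coercion of a bundled cusp form on `Γ₀(p)` is a function-level modular form. -/
theorem coe_cuspForm_mem_MF {k : ℤ} (F : CuspForm (Gamma0 p) k) : ⇑F ∈ MF (Gamma0 p) k :=
  Fermat.Agent.S20.SF_le_MF _ _ (coe_cuspForm_mem_SF p F)

theorem analyticAt_cuspFunction_of_mem_MF {k : ℤ} {f : ℍ → ℂ} (hf : f ∈ MF (Gamma0 p) k) :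
    AnalyticAt ℂ (cuspFunction 1 f) 0 := by
  obtain ⟨F, rfl⟩ := exists_modularForm_of_mem_MF p hf
  exact ModularFormClass.analyticAt_cuspFunction_zero F one_pos
    (CongruenceSubgroup.one_mem_strictPeriods_Gamma0 p)

theorem qCoeff_add_of_mem_MF {k : ℤ} {f g : ℍ → ℂ} (hf : f ∈ MF (Gamma0 p) k)
    (hg : g ∈ MF (Gamma0 p) k) (n : ℕ) : qCoeff (f + g) n = qCoeff f n + qCoeff g n := by
  unfold qCoeff
  rw [qExpansion_add (analyticAt_cuspFunction_of_mem_MF p hf)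
    (analyticAt_cuspFunction_of_mem_MF p hg), map_add]

theorem qCoeff_sub_of_mem_MF {k : ℤ} {f g : ℍ → ℂ} (hf : f ∈ MF (Gamma0 p) k)
    (hg : g ∈ MF (Gamma0 p) k) (n : ℕ) : qCoeff (f - g) n = qCoeff f n - qCoeff g n := by
  unfold qCoeff
  rw [qExpansion_sub (analyticAt_cuspFunction_of_mem_MF p hf)
    (analyticAt_cuspFunction_of_mem_MF p hg), map_sub]

theorem qCoeff_smul_of_mem_MF {k : ℤ} {f : ℍ → ℂ} (hf : f ∈ MF (Gamma0 p) k) (c : ℂ)
    (n : ℕ) : qCoeff (c • f) n = c * qCoeff f n := by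
  unfold qCoeff
  rw [qExpansion_smul (analyticAt_cuspFunction_of_mem_MF p hf), PowerSeries.coeff_smul,
    smul_eq_mul]

theorem qCoeff_zero_of_mem_SF {k : ℤ} {f : ℍ → ℂ} (hf : f ∈ SF (Gamma0 p) k) :
    qCoeff f 0 = 0 := by
  obtain ⟨F, rfl⟩ := exists_cuspForm_of_mem_SF p hf
  exact CuspFormClass.qExpansion_coeff_zero F one_pos
    (CongruenceSubgroup.one_mem_strictPeriods_Gamma0 p)

theorem qCoeff_zero_cuspForm {k : ℤ} (F : CuspForm (Gamma0 p) k) : qCoeff F 0 = 0 :=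
  qCoeff_zero_of_mem_SF p (coe_cuspForm_mem_SF p F)

/-- Elements of the Prelude lattice `intLattice p 2` have integral `q`-coefficients. -/
theorem intAll_of_mem_intLattice {k : ℤ} {f : CuspForm (Gamma0 p) k}
    (hf : f ∈ CuspForm.intLattice p k) : IntAll f := by
  unfold CuspForm.intLattice at hf
  induction hf using Submodule.span_induction with
  | mem f hf => exact hf
  | zero =>
    intro n
    refine ⟨0, ?_⟩
    have : (⇑(0 : CuspForm (Gamma0 p) k) : ℍ → ℂ) = 0 := rfl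
    rw [this]
    simp [qCoeff, qExpansion_zero]
  | add f g _ _ hf hg =>
    intro n
    obtain ⟨a, ha⟩ := hf n
    obtain ⟨b, hb⟩ := hg n
    refine ⟨a + b, ?_⟩
    have : (⇑(f + g) : ℍ → ℂ) = ⇑f + ⇑g := rfl
    rw [this, qCoeff_add_of_mem_MF p (coe_cuspForm_mem_MF p f) (coe_cuspForm_mem_MF p g), ha, hb]
    push_cast
    rfl
  | smul c f _ hf =>
    intro n
    obtain ⟨a, ha⟩ := hf n
    refine ⟨c * a, ?_⟩
    have : (⇑(c • f) : ℍ → ℂ) = (c : ℂ) • ⇑f := by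
      ext z
      simp
    rw [this, qCoeff_smul_of_mem_MF p (coe_cuspForm_mem_MF p f), ha]
    push_cast
    rfl

omit [NeZero p] in
/-- A bundled cusp form with integral `q`-coefficients lies in `intLattice`. -/
theorem mem_intLattice_of_intAll {k : ℤ} {f : CuspForm (Gamma0 p) k} (hf : IntAll f) :
    f ∈ CuspForm.intLattice p k :=
  Submodule.subset_span hf

theorem mem_intLattice_iff {k : ℤ} {f : CuspForm (Gamma0 p) k} :
    f ∈ CuspForm.intLattice p k ↔ IntAll f :=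
  ⟨intAll_of_mem_intLattice p, mem_intLattice_of_intAll p⟩

/-- For a cusp form, integrality from index `1` on is integrality. -/
theorem intAll_of_intFrom1 {k : ℤ} (F : CuspForm (Gamma0 p) k) (hF : IntFrom1 F) : IntAll F := by
  intro n
  rcases Nat.eq_zero_or_pos n with rfl | hn
  · exact ⟨0, by rw [qCoeff_zero_cuspForm p F]; simp⟩
  · exact hF n hn

end Bundle

/-! ## The lattice-level statements -/

/-- `n = (p - 1) / gcd (p - 1) 12`. -/
abbrev eisN (p : ℕ) : ℕ := ModularCurve.eisensteinNumerator p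

/-- (UB'): a form of `intLattice p 2` congruent to the Eisenstein series modulo `m` forces
`m ∣ n`. -/
def UBLattice (p : ℕ) : Prop :=
  ∀ m : ℕ, 1 ≤ m →
    (∃ f ∈ CuspForm.intLattice p 2, ∀ k : ℕ, 1 ≤ k →
      ∃ z : ℤ, qCoeff f k = (sigmaP p k : ℂ) + (m : ℂ) * (z : ℂ)) →
    m ∣ eisN p

/-- (LB'): there is a form of `intLattice p 2` congruent to `c` times the Eisenstein series
modulo `n`, with `c` prime to `n`. -/
def LBLattice (p : ℕ) : Prop :=
  ∃ h ∈ CuspForm.intLattice p 2, ∃ c : ℤ, IsCoprime c (eisN p : ℤ) ∧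
    ∀ k : ℕ, 1 ≤ k →
      ∃ z : ℤ, qCoeff h k = (c : ℂ) * (sigmaP p k : ℂ) + (eisN p : ℂ) * (z : ℂ)

section Arith

theorem gcd_pos (p : ℕ) : 0 < Nat.gcd (p - 1) 12 := Nat.gcd_pos_of_pos_right _ (by norm_num)

theorem gcd_mul_eisN (p : ℕ) : Nat.gcd (p - 1) 12 * eisN p = p - 1 :=
  Nat.mul_div_cancel' (Nat.gcd_dvd_left _ _)

theorem gcd_mul_twelve_div (p : ℕ) : Nat.gcd (p - 1) 12 * (12 / Nat.gcd (p - 1) 12) = 12 :=
  Nat.mul_div_cancel' (Nat.gcd_dvd_right _ _)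

theorem coprime_twelve_div_eisN (p : ℕ) :
    Nat.Coprime (12 / Nat.gcd (p - 1) 12) (eisN p) := by
  have h := Nat.coprime_div_gcd_div_gcd (gcd_pos p)
  exact h.symm

end Arith

/-! ## (UB) + (E) ⇒ (UB') -/

theorem ubLattice_of (p : ℕ) [Fact p.Prime] (hE : HasEis p) (hUB : UpperBound p) :
    UBLattice p := by
  have hp : p.Prime := Fact.out
  have : NeZero p := ⟨hp.ne_zero⟩
  rintro m hm ⟨f, hf, hcong⟩
  obtain ⟨e, he, he0, hek⟩ := hE
  have hm0 : (m : ℂ) ≠ 0 := by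
    have : m ≠ 0 := by omega
    exact_mod_cast this
  have hfMF : (⇑f : ℍ → ℂ) ∈ MF (Gamma0 p) 2 := coe_cuspForm_mem_MF p f
  have hsub : e - ⇑f ∈ MF (Gamma0 p) 2 := Submodule.sub_mem _ he hfMF
  set G : ℍ → ℂ := ((m : ℂ)⁻¹) • (e - ⇑f) with hG
  have hGmem : G ∈ MF (Gamma0 p) 2 := Submodule.smul_mem _ _ hsub
  have hcoef : ∀ k, qCoeff G k = (m : ℂ)⁻¹ * (qCoeff e k - qCoeff f k) := by
    intro k
    rw [hG, qCoeff_smul_of_mem_MF p hsub, qCoeff_sub_of_mem_MF p he hfMF]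
  have hint : IntFrom1 G := by
    intro k hk
    obtain ⟨z, hz⟩ := hcong k hk
    refine ⟨-z, ?_⟩
    rw [hcoef, hek k hk, hz]
    push_cast
    field_simp
    ring
  obtain ⟨z, hz⟩ := hUB G hGmem hint
  rw [hcoef, he0, qCoeff_zero_cuspForm p f] at hz
  -- `24 * (m⁻¹ * ((p - 1)/24 - 0)) = gcd * z`
  have h1 : ((p : ℂ) - 1) = (m : ℂ) * ((Nat.gcd (p - 1) 12 : ℂ) * (z : ℂ)) := by
    rw [← hz]
    field_simp
    ring
  have hp1 : 1 ≤ p := hp.one_lt.le
  have h2 : ((p - 1 : ℕ) : ℤ) = (m : ℤ) * ((Nat.gcd (p - 1) 12 : ℤ) * z) := by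
    have : (((p - 1 : ℕ) : ℤ) : ℂ) = (((m : ℤ) * ((Nat.gcd (p - 1) 12 : ℤ) * z) : ℤ) : ℂ) := by
      push_cast [Nat.cast_sub hp1]
      exact h1
    exact_mod_cast this
  have h3 : ((Nat.gcd (p - 1) 12 : ℤ)) * (eisN p : ℤ) = ((p - 1 : ℕ) : ℤ) := by
    exact_mod_cast gcd_mul_eisN p
  have hg0 : ((Nat.gcd (p - 1) 12 : ℤ)) ≠ 0 := by
    have := gcd_pos p
    exact_mod_cast this.ne'
  have h4 : (eisN p : ℤ) = (m : ℤ) * z := by
    apply mul_left_cancel₀ hg0
    rw [h3, h2]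
    ring
  have h5 : (m : ℤ) ∣ (eisN p : ℤ) := ⟨z, h4⟩
  exact_mod_cast h5

/-! ## (LB) + (E) + (C) ⇒ (LB') -/

theorem lbLattice_of (p : ℕ) [Fact p.Prime] (hE : HasEis p) (hC : CuspCrit p)
    (hLB : LowerBound p) : LBLattice p := by
  have hp : p.Prime := Fact.out
  have : NeZero p := ⟨hp.ne_zero⟩
  have hp1 : 1 ≤ p := hp.one_lt.le
  obtain ⟨e, he, he0, hek⟩ := hE
  obtain ⟨G1, hG1, hG10, hG1k⟩ := hLB
  set ν : ℕ := Nat.gcd (p - 1) 12 with hν
  set c : ℕ := 12 / ν with hc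
  have hνc : ν * c = 12 := gcd_mul_twelve_div p
  have hνn : ν * eisN p = p - 1 := gcd_mul_eisN p
  have hν0 : (ν : ℂ) ≠ 0 := by
    have := gcd_pos p
    exact_mod_cast this.ne'
  have hce : (c : ℂ) • e ∈ MF (Gamma0 p) 2 := Submodule.smul_mem _ _ he
  have hnG : (eisN p : ℂ) • G1 ∈ MF (Gamma0 p) 2 := Submodule.smul_mem _ _ hG1
  set h : ℍ → ℂ := (c : ℂ) • e - (eisN p : ℂ) • G1 with hh
  have hmem : h ∈ MF (Gamma0 p) 2 := Submodule.sub_mem _ hce hnG
  have hcoef : ∀ k, qCoeff h k = (c : ℂ) * qCoeff e k - (eisN p : ℂ) * qCoeff G1 k := by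
    intro k
    rw [hh, qCoeff_sub_of_mem_MF p hce hnG, qCoeff_smul_of_mem_MF p he,
      qCoeff_smul_of_mem_MF p hG1]
  have hνcC : (ν : ℂ) * (c : ℂ) = 12 := by exact_mod_cast hνc
  have hνnC : (ν : ℂ) * (eisN p : ℂ) = (p : ℂ) - 1 := by
    have : ((ν * eisN p : ℕ) : ℂ) = ((p - 1 : ℕ) : ℂ) := by rw [hνn]
    push_cast [Nat.cast_sub hp1] at this
    exact this
  have h0 : qCoeff h 0 = 0 := by
    rw [hcoef, he0, hG10]
    have hcC : (c : ℂ) = 12 / ν := by
      rw [eq_div_iff hν0, mul_comm]; exact hνcC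
    have hnC : (eisN p : ℂ) = ((p : ℂ) - 1) / ν := by
      rw [eq_div_iff hν0, mul_comm]; exact hνnC
    rw [hcC, hnC]
    field_simp
    ring
  have hSF : h ∈ SF (Gamma0 p) 2 := hC h hmem h0
  obtain ⟨H, hH⟩ := exists_cuspForm_of_mem_SF p hSF
  have hHk : ∀ k : ℕ, 1 ≤ k →
      ∃ z : ℤ, qCoeff H k = ((c : ℤ) : ℂ) * (sigmaP p k : ℂ) + (eisN p : ℂ) * (z : ℂ) := by
    intro k hk
    obtain ⟨z, hz⟩ := hG1k k hk
    refine ⟨-z, ?_⟩
    rw [hH, hcoef, hek k hk, hz]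
    push_cast
    ring
  refine ⟨H, ?_, (c : ℤ), ?_, hHk⟩
  · apply mem_intLattice_of_intAll
    apply intAll_of_intFrom1 p H
    intro k hk
    obtain ⟨z, hz⟩ := hHk k hk
    refine ⟨(c : ℤ) * (sigmaP p k : ℤ) + (eisN p : ℤ) * z, ?_⟩
    rw [hz]
    push_cast
    ring
  · exact Nat.isCoprime_iff_coprime.mpr (coprime_twelve_div_eisN p)

/-! ## Reformulations with integer coefficient sequences -/

/-- (UB') with an integer coefficient sequence and divisibility. -/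
theorem UBLattice.dvd {p : ℕ} [NeZero p] (hUB : UBLattice p) {m : ℕ} (hm : 1 ≤ m)
    {f : CuspForm (Gamma0 p) 2} (hf : f ∈ CuspForm.intLattice p 2) (a : ℕ → ℤ)
    (ha : ∀ k, qCoeff f k = (a k : ℂ))
    (hcong : ∀ k : ℕ, 1 ≤ k → (m : ℤ) ∣ a k - (sigmaP p k : ℤ)) : m ∣ eisN p := by
  refine hUB m hm ⟨f, hf, fun k hk => ?_⟩
  obtain ⟨z, hz⟩ := hcong k hk
  refine ⟨z, ?_⟩
  rw [ha k]
  have : a k = (sigmaP p k : ℤ) + (m : ℤ) * z := by linarith
  rw [this]
  push_cast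
  ring

/-- (LB') with an integer coefficient sequence and divisibility. -/
theorem LBLattice.exists_int {p : ℕ} [NeZero p] (hLB : LBLattice p) :
    ∃ h ∈ CuspForm.intLattice p 2, ∃ (c : ℤ) (a : ℕ → ℤ), IsCoprime c (eisN p : ℤ) ∧
      (∀ k, qCoeff h k = (a k : ℂ)) ∧
      ∀ k : ℕ, 1 ≤ k → (eisN p : ℤ) ∣ a k - c * (sigmaP p k : ℤ) := by
  obtain ⟨h, hh, c, hc, hk⟩ := hLB
  have hint := intAll_of_mem_intLattice p hh
  choose a ha using hint
  refine ⟨h, hh, c, a, hc, ha, fun k hk1 => ?_⟩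
  obtain ⟨z, hz⟩ := hk k hk1
  refine ⟨z, ?_⟩
  have : ((a k : ℤ) : ℂ) = ((c * (sigmaP p k : ℤ) + (eisN p : ℤ) * z : ℤ) : ℂ) := by
    rw [← ha k, hz]
    push_cast
    ring
  have h2 : a k = c * (sigmaP p k : ℤ) + (eisN p : ℤ) * z := by exact_mod_cast this
  rw [h2]
  ring

/-! ## Assembly helper -/

/-- WP ALG in lattice shape + BRIDGE-1 gives the skeleton statement `result_of_forms`:
any `Goal` that follows from (UB') and (LB') follows from the four function-level inputs. -/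
theorem goal_of_forms (p : ℕ) [Fact p.Prime] {Goal : Prop}
    (hALG : UBLattice p → LBLattice p → Goal)
    (hE : HasEis p) (hC : CuspCrit p) (hUB : UpperBound p) (hLB : LowerBound p) : Goal :=
  hALG (ubLattice_of p hE hUB) (lbLattice_of p hE hC hLB)

end Fermat.Agent.S16.H127
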